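/-
GATE-M / S41 node (C3) (helper81): Eisenstein classes for the cohomological Hecke operator.

A homomorphism `φ : Γ₀(N) → A` which kills `Γ₁(N)` (equivalently `φ = χ ∘ (d mod N)`) satisfies
`T_ℓ φ = (ℓ + 1) φ` for the cohomological Hecke operator `S16_helper49.cohT`, `ℓ ∤ N` prime.

Proof: from the coset relation `α_x g = g' α_{x·g}` the lower right entries satisfy
`d(α_x) d(g) ≡ d(g') d(α_{x·g}) (mod N)`, `d(α_x) ∈ {1, ℓ}`; choose `e_x ∈ Γ₀(N)` with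
`d(e_x) ≡ d(α_x)`; then `φ(g') = φ(g) + φ(e_x) - φ(e_{x·g})` and the sum over `x` telescopes.
-/
import Mathlib
import Fermat.Agent.S16_helper49.HeckeHom

set_option autoImplicit false

open scoped MatrixGroups
open CongruenceSubgroup Matrix Matrix.SpecialLinearGroup
open P2MW.S_ModularForm_heckeT_slash_eq_self_of_mem_Gamma0.ModularForm.HeckeSlashInvariance
open Fermat.Agent.S16_helper49

namespace Fermat.Agent.GM.EisClass

variable {N : ℕ}

/-! ### The character `d mod N` on `Γ₀(N)` -/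

/-- the lower right entry mod `N` -/
def dN (g : Gamma0 N) : ZMod N := (((g : SL(2, ℤ)) 1 1 : ℤ) : ZMod N)

theorem c_eq_zero (g : Gamma0 N) : ((((g : SL(2, ℤ)) 1 0 : ℤ)) : ZMod N) = 0 :=
  Gamma0_mem.mp g.2

theorem dN_one : dN (1 : Gamma0 N) = 1 := by
  simp [dN]

theorem dN_mul (g h : Gamma0 N) : dN (g * h) = dN g * dN h := by
  unfold dN
  rw [Subgroup.coe_mul, Matrix.SpecialLinearGroup.coe_mul, Matrix.mul_apply, Fin.sum_univ_two]
  push_cast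
  rw [c_eq_zero g, zero_mul, zero_add]

theorem dN_mul_inv (g : Gamma0 N) : dN g * dN g⁻¹ = 1 := by
  rw [← dN_mul, mul_inv_cancel, dN_one]

/-- a homomorphism killing `Γ₁(N)` depends only on `d mod N` -/
theorem eq_of_dN_eq {A : Type*} [AddCommGroup A] (φ : Additive (Gamma0 N) →+ A)
    (hφ : ∀ g : Gamma0 N, dN g = 1 → φ (Additive.ofMul g) = 0) {g h : Gamma0 N}
    (hgh : dN g = dN h) : φ (Additive.ofMul g) = φ (Additive.ofMul h) := by
  have h1 : dN (g * h⁻¹) = 1 := by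
    rw [dN_mul, hgh, dN_mul_inv]
  have h2 := hφ _ h1
  rw [ofMul_mul, map_add, ofMul_inv, map_neg, add_neg_eq_zero] at h2
  exact h2

/-! ### Entries of the Hecke representatives -/

section Rep

variable {ℓ : ℕ} [Fact ℓ.Prime]

/-- the lower right entry of the Hecke representative `α_x` -/
def dRep (ℓ : ℕ) (x : OnePoint (ZMod ℓ)) : ℤ := x.elim 1 (fun _ => (ℓ : ℤ))

/-- the upper right entry of the Hecke representative `α_x` -/
def bRep (ℓ : ℕ) (x : OnePoint (ZMod ℓ)) : ℤ := x.elim 0 (fun j => (j.val : ℤ))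

theorem heckeRep_one_zero (x : OnePoint (ZMod ℓ)) : (heckeRep ℓ x : GL (Fin 2) ℝ) 1 0 = 0 := by
  have hℓ : ℓ ≠ 0 := (Fact.out : ℓ.Prime).ne_zero
  induction x using OnePoint.rec with
  | infty =>
    rw [heckeRep_infty]
    change ((ModularForm.heckeDiagMatrix ℓ : GL (Fin 2) ℝ) : Matrix (Fin 2) (Fin 2) ℝ) 1 0 = 0
    rw [ModularForm.val_heckeDiagMatrix hℓ]
    simp
  | coe j =>
    rw [heckeRep_coe]
    change ((ModularForm.heckeMatrix ℓ j.val : GL (Fin 2) ℝ) : Matrix (Fin 2) (Fin 2) ℝ) 1 0 = 0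
    rw [ModularForm.val_heckeMatrix hℓ]
    simp

theorem heckeRep_one_one (x : OnePoint (ZMod ℓ)) :
    (heckeRep ℓ x : GL (Fin 2) ℝ) 1 1 = (dRep ℓ x : ℝ) := by
  have hℓ : ℓ ≠ 0 := (Fact.out : ℓ.Prime).ne_zero
  induction x using OnePoint.rec with
  | infty =>
    rw [heckeRep_infty]
    change ((ModularForm.heckeDiagMatrix ℓ : GL (Fin 2) ℝ) : Matrix (Fin 2) (Fin 2) ℝ) 1 1 = _
    rw [ModularForm.val_heckeDiagMatrix hℓ]
    simp [dRep]
  | coe j =>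
    rw [heckeRep_coe]
    change ((ModularForm.heckeMatrix ℓ j.val : GL (Fin 2) ℝ) : Matrix (Fin 2) (Fin 2) ℝ) 1 1 = _
    rw [ModularForm.val_heckeMatrix hℓ]
    simp [dRep]

theorem heckeRep_zero_one (x : OnePoint (ZMod ℓ)) :
    (heckeRep ℓ x : GL (Fin 2) ℝ) 0 1 = (bRep ℓ x : ℝ) := by
  have hℓ : ℓ ≠ 0 := (Fact.out : ℓ.Prime).ne_zero
  induction x using OnePoint.rec with
  | infty =>
    rw [heckeRep_infty]
    change ((ModularForm.heckeDiagMatrix ℓ : GL (Fin 2) ℝ) : Matrix (Fin 2) (Fin 2) ℝ) 0 1 = _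
    rw [ModularForm.val_heckeDiagMatrix hℓ]
    simp [bRep]
  | coe j =>
    rw [heckeRep_coe]
    change ((ModularForm.heckeMatrix ℓ j.val : GL (Fin 2) ℝ) : Matrix (Fin 2) (Fin 2) ℝ) 0 1 = _
    rw [ModularForm.val_heckeMatrix hℓ]
    simp [bRep]

/-- **The lower right entries in the coset relation**, as an identity of integers. -/
theorem d_relation (hℓN : ¬ ℓ ∣ N) (g : Gamma0 N) (x : OnePoint (ZMod ℓ)) :
    dRep ℓ x * (g : SL(2, ℤ)) 1 1 =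
      (cT hℓN g x : SL(2, ℤ)) 1 0 * bRep ℓ (redMatrix ℓ (g : SL(2, ℤ)) • x) +
        (cT hℓN g x : SL(2, ℤ)) 1 1 * dRep ℓ (redMatrix ℓ (g : SL(2, ℤ)) • x) := by
  have h := congrArg (fun M : GL (Fin 2) ℝ => (M : Matrix (Fin 2) (Fin 2) ℝ) 1 1) (cT_rel hℓN g x)
  simp only [Matrix.GeneralLinearGroup.coe_mul, Matrix.mul_apply, Fin.sum_univ_two] at h
  have e1 := heckeRep_one_zero (ℓ := ℓ) x
  have e2 := heckeRep_one_one (ℓ := ℓ) x
  have e3 := heckeRep_zero_one (ℓ := ℓ) (redMatrix ℓ (g : SL(2, ℤ)) • x)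
  have e4 := heckeRep_one_one (ℓ := ℓ) (redMatrix ℓ (g : SL(2, ℤ)) • x)
  have m1 := mapGL_apply (g : SL(2, ℤ)) 0 1
  have m2 := mapGL_apply (g : SL(2, ℤ)) 1 1
  have m3 := mapGL_apply (cT hℓN g x : SL(2, ℤ)) 1 0
  have m4 := mapGL_apply (cT hℓN g x : SL(2, ℤ)) 1 1
  change (heckeRep ℓ x : GL (Fin 2) ℝ) 1 0 * (mapGL ℝ (g : SL(2, ℤ)) : GL (Fin 2) ℝ) 0 1 +
      (heckeRep ℓ x : GL (Fin 2) ℝ) 1 1 * (mapGL ℝ (g : SL(2, ℤ)) : GL (Fin 2) ℝ) 1 1 =
    (mapGL ℝ (cT hℓN g x : SL(2, ℤ)) : GL (Fin 2) ℝ) 1 0 *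
        (heckeRep ℓ (redMatrix ℓ (g : SL(2, ℤ)) • x) : GL (Fin 2) ℝ) 0 1 +
      (mapGL ℝ (cT hℓN g x : SL(2, ℤ)) : GL (Fin 2) ℝ) 1 1 *
        (heckeRep ℓ (redMatrix ℓ (g : SL(2, ℤ)) • x) : GL (Fin 2) ℝ) 1 1 at h
  rw [e1, e2, e3, e4, m1, m2, m3, m4, zero_mul, zero_add] at h
  exact_mod_cast h

end Rep

/-! ### The Eisenstein relation -/

section Main

variable {ℓ : ℕ} [Fact ℓ.Prime]

/-- the coset relation on lower right entries, mod `N` -/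
theorem dN_relation (hℓN : ¬ ℓ ∣ N) (g : Gamma0 N) (x : OnePoint (ZMod ℓ)) :
    ((dRep ℓ x : ℤ) : ZMod N) * dN g =
      dN (cT hℓN g x) * ((dRep ℓ (redMatrix ℓ (g : SL(2, ℤ)) • x) : ℤ) : ZMod N) := by
  have h := congrArg (fun z : ℤ => (z : ZMod N)) (d_relation hℓN g x)
  simp only [Int.cast_mul, Int.cast_add] at h
  rw [c_eq_zero (cT hℓN g x), zero_mul, zero_add] at h
  exact h

/-- an element of `Γ₀(N)` with lower right entry `≡ ℓ (mod N)` -/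
theorem exists_dN_eq (hℓN : ¬ ℓ ∣ N) : ∃ e : Gamma0 N, dN e = ((ℓ : ℤ) : ZMod N) := by
  have hcop : IsCoprime (ℓ : ℤ) (N : ℤ) :=
    Nat.isCoprime_iff_coprime.mpr ((Nat.Prime.coprime_iff_not_dvd Fact.out).mpr hℓN)
  obtain ⟨a, b, hab⟩ := hcop
  let M : SL(2, ℤ) := ⟨!![a, -b; (N : ℤ), (ℓ : ℤ)], by
    rw [Matrix.det_fin_two_of]
    linear_combination hab⟩
  have hM10 : M 1 0 = (N : ℤ) := rfl
  have hM11 : M 1 1 = (ℓ : ℤ) := rfl
  have hM : M ∈ Gamma0 N := by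
    rw [Gamma0_mem, hM10]
    simp
  refine ⟨⟨M, hM⟩, ?_⟩
  change ((M 1 1 : ℤ) : ZMod N) = _
  rw [hM11]

/-- **(C3)** A homomorphism `Γ₀(N) → A` killing `Γ₁(N)` is an eigenvector of the cohomological
Hecke operator `T_ℓ` with eigenvalue `ℓ + 1`. -/
theorem cohT_eq_smul_of_kills_Gamma1 (hℓN : ¬ ℓ ∣ N) {A : Type*} [AddCommGroup A]
    (φ : Additive (Gamma0 N) →+ A)
    (hφ : ∀ g : Gamma0 N, ((((g : SL(2, ℤ)) 1 1 : ℤ)) : ZMod N) = 1 → φ (Additive.ofMul g) = 0) :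
    cohT hℓN A φ = (ℓ + 1) • φ := by
  classical
  obtain ⟨e, he⟩ := exists_dN_eq (N := N) (ℓ := ℓ) hℓN
  -- representatives `e_x ∈ Γ₀(N)` with `d(e_x) ≡ d(α_x)`
  let eRep : OnePoint (ZMod ℓ) → Gamma0 N := fun x => x.elim 1 (fun _ => e)
  have heRep : ∀ x : OnePoint (ZMod ℓ), dN (eRep x) = ((dRep ℓ x : ℤ) : ZMod N) := by
    intro x
    induction x using OnePoint.rec with
    | infty =>
      change dN (1 : Gamma0 N) = (((1 : ℤ) : ℤ) : ZMod N)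
      rw [dN_one, Int.cast_one]
    | coe j => exact he
  have hφ' : ∀ g : Gamma0 N, dN g = 1 → φ (Additive.ofMul g) = 0 := hφ
  refine AddMonoidHom.ext fun g' => ?_
  obtain ⟨g, rfl⟩ : ∃ g : Gamma0 N, Additive.ofMul g = g' := ⟨Additive.toMul g', rfl⟩
  rw [cohT_apply]
  set σ : Equiv.Perm (OnePoint (ZMod ℓ)) :=
    MulAction.toPerm (redMatrix ℓ ((g : Gamma0 N) : SL(2, ℤ))) with hσ
  have hterm : ∀ x : OnePoint (ZMod ℓ),
      φ (Additive.ofMul (cT hℓN g x)) =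
        φ (Additive.ofMul g) + (φ (Additive.ofMul (eRep x)) - φ (Additive.ofMul (eRep (σ x)))) := by
    intro x
    have h1 : dN (cT hℓN g x * eRep (σ x)) = dN (eRep x * g) := by
      rw [dN_mul, dN_mul, heRep, heRep]
      exact (dN_relation hℓN g x).symm
    have h2 := eq_of_dN_eq φ hφ' h1
    rw [ofMul_mul, map_add, ofMul_mul, map_add] at h2
    rw [eq_sub_of_add_eq h2]
    abel
  rw [Finset.sum_congr rfl (fun x _ => hterm x), Finset.sum_add_distrib, Finset.sum_sub_distrib,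
    Equiv.sum_comp σ (fun x => φ (Additive.ofMul (eRep x))), sub_self, add_zero,
    Finset.sum_const, Finset.card_univ]
  have hcard : Fintype.card (OnePoint (ZMod ℓ)) = ℓ + 1 := by
    change Fintype.card (Option (ZMod ℓ)) = ℓ + 1
    rw [Fintype.card_option, ZMod.card]
  rw [hcard]
  rfl

/-- an element of `Γ₀(N)` with `d ≡ 1 (mod N)` lies in `Γ₁(N)` -/
theorem mem_Gamma1_of_dN_eq_one (g : Gamma0 N) (h : dN g = 1) : (g : SL(2, ℤ)) ∈ Gamma1 N := by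
  rw [Gamma1_mem]
  have hc := c_eq_zero g
  have hd : ((((g : SL(2, ℤ)) 1 1 : ℤ)) : ZMod N) = 1 := h
  refine ⟨?_, hd, hc⟩
  have hdet := congrArg (fun z : ℤ => (z : ZMod N)) (det_eq (g : SL(2, ℤ)))
  simp only [Int.cast_sub, Int.cast_mul, Int.cast_one] at hdet
  rw [hd, hc, mul_one, mul_zero, sub_zero] at hdet
  exact hdet

/-- **(C3)**, `Γ₁(N)` form. -/
theorem cohT_eq_smul_of_kills_Gamma1' (hℓN : ¬ ℓ ∣ N) {A : Type*} [AddCommGroup A]
    (φ : Additive (Gamma0 N) →+ A)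
    (hφ : ∀ g : Gamma0 N, (g : SL(2, ℤ)) ∈ Gamma1 N → φ (Additive.ofMul g) = 0) :
    cohT hℓN A φ = (ℓ + 1) • φ :=
  cohT_eq_smul_of_kills_Gamma1 hℓN φ (fun g hg => hφ g (mem_Gamma1_of_dN_eq_one g hg))

end Main

end Fermat.Agent.GM.EisClass
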